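import Mathlib
import Fermat.Prelude.Def_GaloisRep_Residual
import Fermat.Prelude.Def_FLTPrelim_Ramification
import Fermat.Agent.G.Asm.Reduce
import Fermat.Agent.G.Asm.Lift
import Fermat.Agent.G.Asm.Span
import Fermat.Agent.G.Per.Mult
import Fermat.Agent.DS.C.Res.Main

/-!
# DS, package (C), row C8 : the ABSTRACT assembly of `DsBB1`

`DscTop M J Ab` : the data and the four properties (HG), (OS), (THETA1), (ES1) which the rows
C0, C5, C6 of `blueprints/S48-C.md` have to provide for `J = J₁(M)(ℚ̄)` and `Ab = Γ₁(M)^ab`;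
`DscaPer 𝒯` : the period black box (PER1) of row C7;

`dsca_main` : these imply the clause of `DsBB1` at level `M` (via helper7's (RES) theorems
`dscr_main`, `dscr_main_tw`).

Everything here is abstract: `J` is any `G_ℚ`-module, `Ab` any finitely generated abelian group.
-/

set_option autoImplicit false
set_option linter.unusedSectionVars false
set_option linter.unusedVariables false
set_option linter.style.haveILetI false

noncomputable section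

namespace Fermat.Agent.DS

open CongruenceSubgroup UpperHalfPlane ModularFormClass Polynomial Fermat.Agent.G
open scoped MatrixGroups ModularForm TensorProduct

local notation "Qb" => AlgebraicClosure ℚ
local notation "GQ" => (AlgebraicClosure ℚ ≃ₐ[ℚ] AlgebraicClosure ℚ)
local notation "ℤbar" => integralClosure ℤ ℂ

/-! ### 0. The contract -/

/-- the group of additive characters of `Ab` with values in `A` killing the set `PE`. -/
def dscaKill {Ab : Type} [AddCommGroup Ab] (PE : Set Ab) (A : Type*) [AddCommGroup A] :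
    AddSubgroup (Ab →+ A) where
  carrier := {χ | ∀ s ∈ PE, χ s = 0}
  zero_mem' := fun _ _ => rfl
  add_mem' := by
    intro χ ψ hχ hψ s hs
    rw [AddMonoidHom.add_apply, hχ s hs, hψ s hs, add_zero]
  neg_mem' := by
    intro χ hχ s hs
    rw [AddMonoidHom.neg_apply, hχ s hs, neg_zero]

theorem mem_dscaKill {Ab : Type} [AddCommGroup Ab] {PE : Set Ab} {A : Type*} [AddCommGroup A]
    {χ : Ab →+ A} : χ ∈ dscaKill PE A ↔ ∀ s ∈ PE, χ s = 0 := Iff.rfl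

/-- **The contract of rows C0 + C5 + C6 of (C).**  `J` stands for `J₁(M)(ℚ̄)`, `Ab` for
`Γ₁(M)^ab`, `PE` for the set of parabolic and elliptic classes, `TJ p`, `DJ d` (`TA p`, `DA d`)
for the Hecke and diamond operators on `J` (on `Ab`); `tw` records which of the two
Eichler–Shimura relations holds for `TJ`. -/
structure DscTop (M : ℕ) [NeZero M] (J : Type) [AddCommGroup J] [DistribMulAction GQ J]
    (Ab : Type) [AddCommGroup Ab] where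
  /-- the Hecke operators on `J` -/
  TJ : ℕ → J →+ J
  /-- the diamond operators on `J` -/
  DJ : (ZMod M)ˣ → J →+ J
  /-- the Hecke operators on `Ab` -/
  TA : ℕ → Ab →+ Ab
  /-- the diamond operators on `Ab` -/
  DA : (ZMod M)ˣ → Ab →+ Ab
  /-- the parabolic and elliptic classes -/
  PE : Set Ab
  /-- `false` : `Frob² - T_p Frob + p ⟨p⟩ = 0`; `true` : `Frob² - T_p Frob + p ⟨p⟩⁻¹ = 0`. -/
  tw : Bool
  /-- `Ab` is finitely generated -/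
  ab_fg : AddGroup.FG Ab
  /-- (HG) -/
  TJ_galois : ∀ (p : ℕ) (σ : GQ) (x : J), TJ p (σ • x) = σ • TJ p x
  /-- (HG) -/
  DJ_galois : ∀ (d : (ZMod M)ˣ) (σ : GQ) (x : J), DJ d (σ • x) = σ • DJ d x
  /-- (OS) torsion points have open stabilisers -/
  open_stab : ∀ (n : ℕ) (x : J), n ≠ 0 → n • x = 0 →
    ∃ E : IntermediateField ℚ Qb, FiniteDimensional ℚ E ∧
      ∀ σ : GQ, (∀ y ∈ E, σ y = y) → σ • x = x
  /-- (THETA1) -/
  theta : ∀ ℓ : ℕ, ℓ.Prime → ∃ Θ : dscaKill PE (ZMod ℓ) →+ J, Function.Injective Θ ∧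
    (∀ p : ℕ, p.Prime → ¬ p ∣ M → p ≠ ℓ → ∀ χ χ' : dscaKill PE (ZMod ℓ),
      (χ' : Ab →+ ZMod ℓ) = (χ : Ab →+ ZMod ℓ).comp (TA p) → Θ χ' = TJ p (Θ χ)) ∧
    (∀ (d : (ZMod M)ˣ) (χ χ' : dscaKill PE (ZMod ℓ)),
      (χ' : Ab →+ ZMod ℓ) = (χ : Ab →+ ZMod ℓ).comp (DA d) → Θ χ' = DJ d (Θ χ))
  /-- (ES1) -/
  es : ∀ ℓ : ℕ, ℓ.Prime → ∀ p : ℕ, p.Prime → ¬ p ∣ M * ℓ →
    ∀ d : (ZMod M)ˣ, (d : ZMod M) = (p : ZMod M) →
    ∀ A : ValuationSubring Qb, A.LiesOverPrime p →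
      (∀ σ ∈ A.inertiaSubgroupIn ℚ, ∀ x : J, (∃ n : ℕ, ℓ ^ n • x = 0) → σ • x = x) ∧
      (∀ σ : GQ, A.IsFrobeniusAt σ p → ∀ x : J, (∃ n : ℕ, ℓ ^ n • x = 0) →
        σ • σ • x - TJ p (σ • x) + p • DJ (if tw then d⁻¹ else d) x = 0)

/-- **(PER1)**, the contract of row C7. -/
def DscaPer {M : ℕ} [NeZero M] {J : Type} [AddCommGroup J] [DistribMulAction GQ J]
    {Ab : Type} [AddCommGroup Ab] (𝒯 : DscTop M J Ab) : Prop :=
  ∀ (g : CuspForm (Gamma1 M) 2) (ψ : DirichletCharacter ℂ M) (b : ℕ → ℂ),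
    g ≠ 0 →
    (∀ γ : SL(2, ℤ), γ ∈ Gamma0 M →
      (g : ℍ → ℂ) ∣[(2 : ℤ)] γ = ψ ((γ 1 1 : ℤ) : ZMod M) • (g : ℍ → ℂ)) →
    (∀ p : ℕ, p.Prime → ¬ p ∣ M → ∀ n : ℕ,
      qCoeff g (p * n) + (p : ℂ) * ψ (p : ZMod M) * (if p ∣ n then qCoeff g (n / p) else 0)
        = b p * qCoeff g n) →
    ∃ Ψ : Ab →+ ℂ, Ψ ≠ 0 ∧ (∀ s ∈ 𝒯.PE, Ψ s = 0) ∧
      (∀ p : ℕ, p.Prime → ¬ p ∣ M →
        Ψ.comp (𝒯.TA p) = (if 𝒯.tw then b p * (ψ (p : ZMod M))⁻¹ else b p) • Ψ) ∧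
      (∀ d : (ZMod M)ˣ, Ψ.comp (𝒯.DA d) = ψ (d : ZMod M) • Ψ)

/-! ### 1. The `ℓ`-torsion of an abelian group as a `ZMod ℓ`-module -/

section Tor

variable (J : Type) [AddCommGroup J] (ℓ : ℕ)

/-- `J[ℓ]` -/
def dscaTor : AddSubgroup J where
  carrier := {x | ℓ • x = 0}
  zero_mem' := smul_zero ℓ
  add_mem' := by
    intro a b ha hb
    have ha' : ℓ • a = 0 := ha
    have hb' : ℓ • b = 0 := hb
    show ℓ • (a + b) = 0
    rw [smul_add, ha', hb', add_zero]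
  neg_mem' := by
    intro a ha
    have ha' : ℓ • a = 0 := ha
    show ℓ • (-a) = 0
    rw [smul_neg, ha', neg_zero]

theorem mem_dscaTor {x : J} : x ∈ dscaTor J ℓ ↔ ℓ • x = 0 := Iff.rfl

instance dscaTorModule : Module (ZMod ℓ) (dscaTor J ℓ) :=
  AddCommGroup.zmodModule (fun x => Subtype.ext (by
    rw [AddSubgroup.coe_nsmul, AddSubgroup.coe_zero]; exact x.2))

variable {J}

/-- restriction of an additive endomorphism to `J[ℓ]` -/
def dscaRes (f : J →+ J) : dscaTor J ℓ →ₗ[ZMod ℓ] dscaTor J ℓ :=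
  AddMonoidHom.toZModLinearMap ℓ
    ((f.comp (dscaTor J ℓ).subtype).codRestrict (dscaTor J ℓ) (fun x => by
      show ℓ • f (x : J) = 0
      rw [← map_nsmul, (x.2 : ℓ • (x : J) = 0), map_zero]))

@[simp]
theorem dscaRes_coe (f : J →+ J) (x : dscaTor J ℓ) :
    ((dscaRes ℓ f x : dscaTor J ℓ) : J) = f (x : J) := rfl

theorem dscaRes_comp (f g : J →+ J) :
    dscaRes ℓ (f.comp g) = dscaRes ℓ f * dscaRes ℓ g := by
  refine LinearMap.ext fun x => Subtype.ext ?_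
  rfl

theorem dscaRes_id : dscaRes ℓ (AddMonoidHom.id J) = 1 := by
  refine LinearMap.ext fun x => Subtype.ext ?_
  rfl

end Tor

/-! ### 2. The Galois module `κ ⊗ J[ℓ]` -/

section Rho

variable {J : Type} [AddCommGroup J] [DistribMulAction GQ J] (ℓ : ℕ)
  (κ : Type) [Field κ] [Algebra (ZMod ℓ) κ]

/-- the action of `σ` as an additive endomorphism -/
def dscaSig (σ : GQ) : J →+ J := DistribSMul.toAddMonoidHom J σ

@[simp]
theorem dscaSig_apply (σ : GQ) (x : J) : dscaSig σ x = σ • x := rfl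

/-- shortcut instance -/
instance dscaTensorAddCommGroup : AddCommGroup (κ ⊗[ZMod ℓ] dscaTor J ℓ) :=
  TensorProduct.addCommGroup

/-- the base change to `κ` of the restriction to `J[ℓ]` of an additive endomorphism. -/
def dscaBC (f : J →+ J) : Module.End κ (κ ⊗[ZMod ℓ] dscaTor J ℓ) :=
  (dscaRes ℓ f).baseChange κ

theorem dscaBC_tmul (f : J →+ J) (c : κ) (P : dscaTor J ℓ) :
    dscaBC ℓ κ f (c ⊗ₜ[ZMod ℓ] P) = c ⊗ₜ[ZMod ℓ] (dscaRes ℓ f P) := by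
  unfold dscaBC
  rw [LinearMap.baseChange_tmul]

theorem dscaBC_comp (f g : J →+ J) :
    dscaBC ℓ κ (f.comp g) = dscaBC ℓ κ f * dscaBC ℓ κ g := by
  unfold dscaBC
  rw [dscaRes_comp, LinearMap.baseChange_mul]

theorem dscaBC_id : dscaBC ℓ κ (AddMonoidHom.id J) = 1 := by
  unfold dscaBC
  rw [dscaRes_id, LinearMap.baseChange_one]

/-- the Galois action on `κ ⊗ J[ℓ]`. -/
def dscaRhoM : GQ →* Module.End κ (κ ⊗[ZMod ℓ] dscaTor J ℓ) where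
  toFun σ := dscaBC ℓ κ (dscaSig σ)
  map_one' := by
    have h : dscaSig (J := J) 1 = AddMonoidHom.id J := by
      ext x
      rw [dscaSig_apply, one_smul, AddMonoidHom.id_apply]
    rw [h, dscaBC_id]
  map_mul' σ τ := by
    have h : dscaSig (J := J) (σ * τ) = (dscaSig σ).comp (dscaSig τ) := by
      ext x
      rw [dscaSig_apply, AddMonoidHom.comp_apply, dscaSig_apply, dscaSig_apply, mul_smul]
    rw [h, dscaBC_comp]

theorem dscaRhoM_apply (σ : GQ) : dscaRhoM (J := J) ℓ κ σ = dscaBC ℓ κ (dscaSig σ) := rfl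

theorem dscaRhoM_tmul (σ : GQ) (c : κ) (P : dscaTor J ℓ) :
    dscaRhoM ℓ κ σ (c ⊗ₜ[ZMod ℓ] P) = c ⊗ₜ[ZMod ℓ] (dscaRes ℓ (dscaSig σ) P) := by
  rw [dscaRhoM_apply, dscaBC_tmul]

/-- an additive endomorphism commuting with `σ` commutes with it on `κ ⊗ J[ℓ]`. -/
theorem dscaBC_galois (T : J →+ J) (hT : ∀ (σ : GQ) (x : J), T (σ • x) = σ • T x) (σ : GQ)
    (y : κ ⊗[ZMod ℓ] dscaTor J ℓ) :
    dscaBC ℓ κ T (dscaRhoM ℓ κ σ y) = dscaRhoM ℓ κ σ (dscaBC ℓ κ T y) := by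
  rw [dscaRhoM_apply, ← Module.End.mul_apply, ← Module.End.mul_apply, ← dscaBC_comp,
    ← dscaBC_comp]
  congr 2
  ext x
  rw [AddMonoidHom.comp_apply, AddMonoidHom.comp_apply, dscaSig_apply, dscaSig_apply, hT]

/-- an element fixing all the `ℓ`-torsion points acts trivially. -/
theorem dscaRhoM_eq_one (σ : GQ) (h : ∀ x : J, ℓ • x = 0 → σ • x = x) :
    dscaRhoM (J := J) ℓ κ σ = 1 := by
  have h1 : dscaRes ℓ (dscaSig (J := J) σ) = 1 := by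
    refine LinearMap.ext fun P => Subtype.ext ?_
    rw [dscaRes_coe, dscaSig_apply, Module.End.one_apply]
    exact h _ P.2
  rw [dscaRhoM_apply]
  unfold dscaBC
  rw [h1, LinearMap.baseChange_one]

/-- a quadratic relation on `J[ℓ]` passes to `κ ⊗ J[ℓ]`. -/
theorem dscaBC_quadratic (f T D : J →+ J) (n : ℕ)
    (h : ∀ x : J, ℓ • x = 0 → f (f x) - T (f x) + n • D x = 0)
    (y : κ ⊗[ZMod ℓ] dscaTor J ℓ) :
    dscaBC ℓ κ f (dscaBC ℓ κ f y) - dscaBC ℓ κ T (dscaBC ℓ κ f y)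
      + (n : κ) • dscaBC ℓ κ D y = 0 := by
  rw [Nat.cast_smul_eq_nsmul κ n]
  induction y using TensorProduct.induction_on with
  | zero => simp only [map_zero, smul_zero, sub_zero, add_zero]
  | tmul c P =>
    rw [dscaBC_tmul, dscaBC_tmul, dscaBC_tmul, dscaBC_tmul]
    have key : dscaRes ℓ f (dscaRes ℓ f P) - dscaRes ℓ T (dscaRes ℓ f P)
        + n • dscaRes ℓ D P = 0 := by
      apply Subtype.ext
      rw [AddSubgroup.coe_add, AddSubgroup.coe_sub, AddSubgroup.coe_nsmul, dscaRes_coe,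
        dscaRes_coe, dscaRes_coe, dscaRes_coe, AddSubgroup.coe_zero]
      exact h _ P.2
    have h2 := congrArg (TensorProduct.mk (ZMod ℓ) κ (dscaTor J ℓ) c) key
    rw [map_add, map_sub, map_nsmul, map_zero] at h2
    exact h2
  | add y z hy hz =>
    have : dscaBC ℓ κ f (dscaBC ℓ κ f (y + z)) - dscaBC ℓ κ T (dscaBC ℓ κ f (y + z))
          + n • dscaBC ℓ κ D (y + z) =
        (dscaBC ℓ κ f (dscaBC ℓ κ f y) - dscaBC ℓ κ T (dscaBC ℓ κ f y)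
          + n • dscaBC ℓ κ D y) +
        (dscaBC ℓ κ f (dscaBC ℓ κ f z) - dscaBC ℓ κ T (dscaBC ℓ κ f z)
          + n • dscaBC ℓ κ D z) := by
      simp only [map_add, smul_add]
      abel
    rw [this, hy, hz, add_zero]

/-- every element of `κ ⊗ J[ℓ]` is fixed by `Gal(ℚ̄/E)`, `E/ℚ` finite. -/
theorem dsca_exists_level
    (hos : ∀ x : J, ℓ • x = 0 → ∃ E : IntermediateField ℚ Qb, FiniteDimensional ℚ E ∧
      ∀ σ : GQ, (∀ y ∈ E, σ y = y) → σ • x = x)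
    (x : κ ⊗[ZMod ℓ] dscaTor J ℓ) :
    ∃ E : IntermediateField ℚ Qb, FiniteDimensional ℚ E ∧
      ∀ σ : GQ, (∀ y ∈ E, σ y = y) → dscaRhoM ℓ κ σ x = x := by
  induction x using TensorProduct.induction_on with
  | zero => exact ⟨⊥, inferInstance, fun σ _ => map_zero _⟩
  | tmul c P =>
    obtain ⟨E, hE1, hE2⟩ := hos (P : J) P.2
    refine ⟨E, hE1, fun σ hσ => ?_⟩
    rw [dscaRhoM_tmul]
    congr 1
    apply Subtype.ext
    rw [dscaRes_coe, dscaSig_apply]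
    exact hE2 σ hσ
  | add y z hy hz =>
    obtain ⟨E, hE1, hE2⟩ := hy
    obtain ⟨F, hF1, hF2⟩ := hz
    haveI := hE1
    haveI := hF1
    refine ⟨E ⊔ F, IntermediateField.finiteDimensional_sup E F, fun σ hσ => ?_⟩
    rw [map_add, hE2 σ (fun y hy => hσ y ((le_sup_left : E ≤ E ⊔ F) hy)),
      hF2 σ (fun y hy => hσ y ((le_sup_right : F ≤ E ⊔ F) hy))]

/-- a finite set of elements of `κ ⊗ J[ℓ]` is fixed by `Gal(ℚ̄/E)`, `E/ℚ` finite. -/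
theorem dsca_exists_level_set
    (hos : ∀ x : J, ℓ • x = 0 → ∃ E : IntermediateField ℚ Qb, FiniteDimensional ℚ E ∧
      ∀ σ : GQ, (∀ y ∈ E, σ y = y) → σ • x = x)
    (S : Set (κ ⊗[ZMod ℓ] dscaTor J ℓ)) (hS : S.Finite) :
    ∃ E : IntermediateField ℚ Qb, FiniteDimensional ℚ E ∧
      ∀ σ : GQ, (∀ y ∈ E, σ y = y) → ∀ x ∈ S, dscaRhoM ℓ κ σ x = x := by
  induction S, hS using Set.Finite.induction_on with
  | empty => exact ⟨⊥, inferInstance, fun σ _ x hx => absurd hx (Set.notMem_empty x)⟩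
  | @insert a S _ _ ih =>
    obtain ⟨E, hE1, hE2⟩ := ih
    obtain ⟨F, hF1, hF2⟩ := dsca_exists_level ℓ κ hos a
    haveI := hE1
    haveI := hF1
    refine ⟨E ⊔ F, IntermediateField.finiteDimensional_sup E F, fun σ hσ x hx => ?_⟩
    rcases Set.mem_insert_iff.mp hx with rfl | hx
    · exact hF2 σ (fun y hy => hσ y ((le_sup_right : F ≤ E ⊔ F) hy))
    · exact hE2 σ (fun y hy => hσ y ((le_sup_left : E ≤ E ⊔ F) hy)) x hx

/-- the orbit of an element of `κ ⊗ J[ℓ]` is finite. -/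
theorem dsca_orbit_finite
    (hos : ∀ x : J, ℓ • x = 0 → ∃ E : IntermediateField ℚ Qb, FiniteDimensional ℚ E ∧
      ∀ σ : GQ, (∀ y ∈ E, σ y = y) → σ • x = x)
    (x : κ ⊗[ZMod ℓ] dscaTor J ℓ) :
    (Set.range fun σ : GQ => dscaRhoM ℓ κ σ x).Finite := by
  obtain ⟨E, hE1, hE3⟩ := dsca_exists_level ℓ κ hos x
  haveI := hE1
  have hfact : Function.FactorsThrough (fun σ : GQ => dscaRhoM ℓ κ σ x)
      (fun σ : GQ => (σ : Qb →ₐ[ℚ] Qb).comp E.val) := by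
    intro σ τ h
    have hmem : ∀ y ∈ E, (τ⁻¹ * σ) y = y := by
      intro y hy
      have := DFunLike.congr_fun h ⟨y, hy⟩
      show τ⁻¹ (σ y) = y
      have h2 : σ y = τ y := this
      rw [h2]
      exact τ.symm_apply_apply y
    have := hE3 _ hmem
    show dscaRhoM ℓ κ σ x = dscaRhoM ℓ κ τ x
    have h3 : σ = τ * (τ⁻¹ * σ) := by group
    rw [h3, map_mul, Module.End.mul_apply, this]
  obtain ⟨e, he⟩ := (Function.factorsThrough_iff _).mp hfact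
  rw [he]
  exact (Set.finite_range e).subset (Set.range_comp_subset_range _ e)

end Rho

/-! ### 3. Pure algebra -/

/-- a relation `A² - T A + n D = 0` on `Mod` restricts to `A² - c A + n e = 0` on the span when
`T`, `D` act as the scalars `c`, `e` there. -/
theorem dsca_span_quadratic {κ : Type*} [Field κ] {Mod : Type*} [AddCommGroup Mod] [Module κ Mod]
    {G : Type*} [Group G] (ρ : G →* Module.End κ Mod) (x : Mod) (T D : Module.End κ Mod)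
    (c e n : κ) (hT : ∀ w ∈ gasmSpan ρ x, T w = c • w) (hD : ∀ w ∈ gasmSpan ρ x, D w = e • w)
    (σ : G) (hrel : ∀ y : Mod, ρ σ (ρ σ y) - T (ρ σ y) + n • D y = 0) :
    gasmSpanRep ρ x σ * gasmSpanRep ρ x σ - c • gasmSpanRep ρ x σ
      + (n * e) • (1 : Module.End κ (gasmSpan ρ x)) = 0 := by
  ext ⟨w, hw⟩
  simp only [LinearMap.add_apply, LinearMap.sub_apply, Module.End.mul_apply, LinearMap.smul_apply,
    Module.End.one_apply, LinearMap.zero_apply, Submodule.coe_add, Submodule.coe_sub,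
    Submodule.coe_smul, gasmSpanRep_coe, Submodule.coe_zero]
  rw [← hT _ (gasm_span_stable ρ x σ w hw), mul_smul, ← hD w hw]
  exact hrel w

/-- eigenvalues of endomorphisms of a finitely generated abelian group on nonzero complex
characters are algebraic integers. -/
theorem dsca_isIntegral_of_eigen {H : Type*} [AddCommGroup H] (hH : AddGroup.FG H)
    (τ : H →+ H) (ψ : H →+ ℂ) (hψ : ψ ≠ 0) (a : ℂ) (heig : ψ.comp τ = a • ψ) :
    IsIntegral ℤ a := by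
  let Λ : Submodule ℤ ℂ := LinearMap.range ψ.toIntLinearMap
  have hmemΛ : ∀ h : H, ψ h ∈ Λ := fun h => ⟨h, rfl⟩
  have hfg : Λ.FG := by
    have : Module.Finite ℤ H := Module.Finite.iff_addGroup_fg.mpr hH
    exact Module.Finite.iff_fg.mp (Module.Finite.range ψ.toIntLinearMap)
  have hΛ : Λ ≠ ⊥ := by
    intro h
    apply hψ
    refine AddMonoidHom.ext fun x => ?_
    have := hmemΛ x
    rw [h, Submodule.mem_bot] at this
    exact this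
  refine gprm_isIntegral_of_mem hfg hΛ ?_
  rintro _ ⟨h, rfl⟩
  refine ⟨τ h, ?_⟩
  have := DFunLike.congr_fun heig h
  simpa using this


/-! ### 4. The assembly -/

section Main

variable {M : ℕ} [NeZero M] {J : Type} [AddCommGroup J] [DistribMulAction GQ J]
  {Ab : Type} [AddCommGroup Ab]

/-- **Step A** (PER1 + RED) : a nonzero character of `Ab` with values in a finite field
`κ ⊆ k`, killing `PE`, eigen for all `TA p`, `p ∤ M`, and all `DA d`, with eigenvalues lifting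
to algebraic integers. -/
theorem dsca_eigen_finite (𝒯 : DscTop M J Ab) (hper : DscaPer 𝒯)
    (g : CuspForm (Gamma1 M) 2) (ψ : DirichletCharacter ℂ M) (b : ℕ → ℂ) (hg : g ≠ 0)
    (hneb : ∀ γ : SL(2, ℤ), γ ∈ Gamma0 M →
      (g : ℍ → ℂ) ∣[(2 : ℤ)] γ = ψ ((γ 1 1 : ℤ) : ZMod M) • (g : ℍ → ℂ))
    (heig : ∀ p : ℕ, p.Prime → ¬ p ∣ M → ∀ n : ℕ,
      qCoeff g (p * n) + (p : ℂ) * ψ (p : ZMod M) * (if p ∣ n then qCoeff g (n / p) else 0)
        = b p * qCoeff g n)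
    {ℓ : ℕ} [Fact ℓ.Prime] {k : Type} [Field k] [CharP k ℓ] (φ : ℤbar →+* k) :
    ∃ (κ : Type) (_ : Field κ) (_ : Finite κ) (_ : Algebra (ZMod ℓ) κ) (ι : κ →+* k)
      (aT : ℕ → ℤbar) (aD : (ZMod M)ˣ → ℤbar) (cT : ℕ → κ) (cD : (ZMod M)ˣ → κ)
      (ψ' : Ab →+ κ), ψ' ≠ 0 ∧ (∀ s ∈ 𝒯.PE, ψ' s = 0) ∧
      (∀ p : ℕ, p.Prime → ¬ p ∣ M →
        ((aT p : ℤbar) : ℂ) = if 𝒯.tw then b p * (ψ (p : ZMod M))⁻¹ else b p) ∧
      (∀ d : (ZMod M)ˣ, ((aD d : ℤbar) : ℂ) = ψ (d : ZMod M)) ∧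
      (∀ p : ℕ, p.Prime → ¬ p ∣ M → ι (cT p) = φ (aT p)) ∧
      (∀ d : (ZMod M)ˣ, ι (cD d) = φ (aD d)) ∧
      (∀ p : ℕ, p.Prime → ¬ p ∣ M → ψ'.comp (𝒯.TA p) = cT p • ψ') ∧
      (∀ d : (ZMod M)ˣ, ψ'.comp (𝒯.DA d) = cD d • ψ') := by
  classical
  obtain ⟨Ψ, hΨ0, hΨPE, hΨT, hΨD⟩ := hper g ψ b hg hneb heig
  let I : Type := {p : ℕ // p.Prime ∧ ¬ p ∣ M} ⊕ (ZMod M)ˣ
  let τ : I → Ab →+ Ab := Sum.elim (fun i => 𝒯.TA i.1) 𝒯.DA
  let e : I → ℂ :=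
    Sum.elim (fun i => if 𝒯.tw then b i.1 * (ψ (i.1 : ZMod M))⁻¹ else b i.1)
      (fun d => ψ (d : ZMod M))
  have he : ∀ i, Ψ.comp (τ i) = e i • Ψ := by
    rintro (i | d)
    · exact hΨT i.1 i.2.1 i.2.2
    · exact hΨD d
  have hint : ∀ i, IsIntegral ℤ (e i) := fun i =>
    dsca_isIntegral_of_eigen 𝒯.ab_fg (τ i) Ψ hΨ0 (e i) (he i)
  let a : I → ℤbar := fun i => ⟨e i, hint i⟩
  obtain ⟨κ, iF, iFin, iAlg, ι, c, ψ', hψ'0, hψ'S, hιc, hψ'eig⟩ :=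
    gasm_reduce 𝒯.ab_fg τ 𝒯.PE a Ψ hΨ0 hΨPE (fun i => he i) (p := ℓ) φ
  refine ⟨κ, iF, iFin, iAlg, ι,
    fun p => if h : p.Prime ∧ ¬ p ∣ M then a (Sum.inl ⟨p, h⟩) else 0,
    fun d => a (Sum.inr d),
    fun p => if h : p.Prime ∧ ¬ p ∣ M then c (Sum.inl ⟨p, h⟩) else 0,
    fun d => c (Sum.inr d), ψ', hψ'0, hψ'S, ?_, ?_, ?_, ?_, ?_, ?_⟩
  · intro p hp hpM
    beta_reduce
    rw [dif_pos (⟨hp, hpM⟩ : p.Prime ∧ ¬ p ∣ M)]
    rfl
  · intro d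
    rfl
  · intro p hp hpM
    beta_reduce
    rw [dif_pos (⟨hp, hpM⟩ : p.Prime ∧ ¬ p ∣ M), dif_pos (⟨hp, hpM⟩ : p.Prime ∧ ¬ p ∣ M)]
    exact hιc (Sum.inl ⟨p, hp, hpM⟩)
  · intro d
    exact hιc (Sum.inr d)
  · intro p hp hpM
    beta_reduce
    rw [dif_pos (⟨hp, hpM⟩ : p.Prime ∧ ¬ p ∣ M)]
    exact hψ'eig (Sum.inl ⟨p, hp, hpM⟩)
  · intro d
    exact hψ'eig (Sum.inr d)

/-- **Step B** (THETA1 + LIFT) : a nonzero eigenvector of the Hecke and diamond operators in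
`κ ⊗ J[ℓ]`. -/
theorem dsca_eigenvector (𝒯 : DscTop M J Ab) (ℓ : ℕ) [Fact ℓ.Prime] {κ : Type} [Field κ]
    [Finite κ] [Algebra (ZMod ℓ) κ] (cT : ℕ → κ) (cD : (ZMod M)ˣ → κ) (ψ' : Ab →+ κ)
    (hψ'0 : ψ' ≠ 0) (hPE : ∀ s ∈ 𝒯.PE, ψ' s = 0)
    (hT : ∀ p : ℕ, p.Prime → ¬ p ∣ M → ψ'.comp (𝒯.TA p) = cT p • ψ')
    (hD : ∀ d : (ZMod M)ˣ, ψ'.comp (𝒯.DA d) = cD d • ψ') :
    ∃ x : κ ⊗[ZMod ℓ] dscaTor J ℓ, x ≠ 0 ∧
      (∀ p : ℕ, p.Prime → ¬ p ∣ M → p ≠ ℓ → dscaBC ℓ κ (𝒯.TJ p) x = cT p • x) ∧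
      (∀ d : (ZMod M)ˣ, dscaBC ℓ κ (𝒯.DJ d) x = cD d • x) := by
  obtain ⟨Θ, hΘinj, hΘT, hΘD⟩ := 𝒯.theta ℓ Fact.out
  have hmem : ∀ χ : dscaKill 𝒯.PE (ZMod ℓ), Θ χ ∈ dscaTor J ℓ := by
    intro χ
    rw [mem_dscaTor, ← map_nsmul]
    have h0 : (ℓ • χ : dscaKill 𝒯.PE (ZMod ℓ)) = 0 := by
      apply Subtype.ext
      apply AddMonoidHom.ext
      intro h
      rw [AddSubgroup.coe_nsmul, AddMonoidHom.smul_apply, AddSubgroup.coe_zero,
        AddMonoidHom.zero_apply, nsmul_eq_mul, ZMod.natCast_self, zero_mul]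
    rw [h0, map_zero]
  let Θ' : dscaKill 𝒯.PE (ZMod ℓ) →+ dscaTor J ℓ := Θ.codRestrict (dscaTor J ℓ) hmem
  have hΘ'inj : Function.Injective Θ' := fun χ χ' h =>
    hΘinj (congrArg Subtype.val h)
  have hcomp : ∀ lam : κ →ₗ[ZMod ℓ] ZMod ℓ,
      lam.toAddMonoidHom.comp ψ' ∈ dscaKill 𝒯.PE (ZMod ℓ) := by
    intro lam s hs
    rw [AddMonoidHom.comp_apply, hPE s hs, map_zero]
  obtain ⟨x, hx0, hx⟩ := gasm_lift (p := ℓ) (κ := κ) (dscaKill 𝒯.PE (ZMod ℓ))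
    (J' := dscaTor J ℓ) Θ' hΘ'inj ψ' hψ'0 hcomp
  refine ⟨x, hx0, fun p hp hpM hpℓ => ?_, fun d => ?_⟩
  · refine hx (𝒯.TA p) (dscaRes ℓ (𝒯.TJ p)) (cT p) (fun χ χ' h => ?_) (hT p hp hpM)
    apply Subtype.ext
    rw [dscaRes_coe]
    exact hΘT p hp hpM hpℓ χ χ' h
  · refine hx (𝒯.DA d) (dscaRes ℓ (𝒯.DJ d)) (cD d) (fun χ χ' h => ?_) (hD d)
    apply Subtype.ext
    rw [dscaRes_coe]
    exact hΘD d χ χ' h

/-- the reduced nebentypus -/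
theorem dsca_exists_char {κ k : Type} [Field κ] [Field k] (ι : κ →+* k) (φ : ℤbar →+* k)
    (ψ : DirichletCharacter ℂ M) (aD : (ZMod M)ˣ → ℤbar) (cD : (ZMod M)ˣ → κ)
    (haD : ∀ d : (ZMod M)ˣ, ((aD d : ℤbar) : ℂ) = ψ (d : ZMod M))
    (hcD : ∀ d : (ZMod M)ˣ, ι (cD d) = φ (aD d)) :
    ∃ ψb : DirichletCharacter κ M, ∀ d : (ZMod M)ˣ, ψb (d : ZMod M) = cD d := by
  have ha1 : aD 1 = 1 := by
    apply Subtype.ext
    rw [haD, Units.val_one, map_one]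
    rfl
  have hamul : ∀ d e : (ZMod M)ˣ, aD (d * e) = aD d * aD e := by
    intro d e
    apply Subtype.ext
    rw [haD, Units.val_mul, map_mul, ← haD d, ← haD e]
    rfl
  have hc1 : cD 1 = 1 := by
    apply ι.injective
    rw [hcD, ha1, map_one, map_one]
  have hcmul : ∀ d e : (ZMod M)ˣ, cD (d * e) = cD d * cD e := by
    intro d e
    apply ι.injective
    rw [hcD, hamul, map_mul, map_mul, hcD, hcD]
  let f : (ZMod M)ˣ →* κ :=
    { toFun := cD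
      map_one' := hc1
      map_mul' := hcmul }
  refine ⟨MulChar.ofUnitHom f.toHomUnits, fun d => ?_⟩
  rw [MulChar.ofUnitHom_coe, MonoidHom.coe_toHomUnits]
  rfl

/-- **The abstract assembly**: the contract `DscTop` + (PER1) give the clause of `DsBB1` at
level `M`. -/
theorem dsca_main (𝒯 : DscTop M J Ab) (hper : DscaPer 𝒯)
    (g : CuspForm (Gamma1 M) 2) (ψ : DirichletCharacter ℂ M) (b : ℕ → ℂ) (hg : g ≠ 0)
    (hneb : ∀ γ : SL(2, ℤ), γ ∈ Gamma0 M →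
      (g : ℍ → ℂ) ∣[(2 : ℤ)] γ = ψ ((γ 1 1 : ℤ) : ZMod M) • (g : ℍ → ℂ))
    (heig : ∀ p : ℕ, p.Prime → ¬ p ∣ M → ∀ n : ℕ,
      qCoeff g (p * n) + (p : ℂ) * ψ (p : ZMod M) * (if p ∣ n then qCoeff g (n / p) else 0)
        = b p * qCoeff g n)
    (ℓ : ℕ) (hℓ : ℓ.Prime) (k : Type) [Field k] [CharP k ℓ] (φ : ℤbar →+* k) :
    ∃ ρ : ResidualGaloisRep k,
      (∀ p : ℕ, p.Prime → ¬ p ∣ M * ℓ → ρ.IsUnramifiedAt p) ∧
      ∀ p : ℕ, p.Prime → ¬ p ∣ M * ℓ →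
        ∀ A : ValuationSubring Qb, A.LiesOverPrime p →
          ∀ σ : GQ, A.IsFrobeniusAt σ p →
            ∃ x y : ℤbar, (x : ℂ) = b p ∧ (y : ℂ) = (p : ℂ) * ψ (p : ZMod M) ∧
              LinearMap.charpoly (ρ.ρ σ) = X ^ 2 - C (φ x) * X + C (φ y) := by
  classical
  haveI : Fact ℓ.Prime := ⟨hℓ⟩
  obtain ⟨κ, iF, iFin, iAlg, ι, aT, aD, cT, cD, ψ', hψ'0, hPE, haT, haD, hιT, hιD, heigT, heigD⟩ :=
    dsca_eigen_finite 𝒯 hper g ψ b hg hneb heig (ℓ := ℓ) φ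
  obtain ⟨x, hx0, hxT, hxD⟩ := dsca_eigenvector 𝒯 ℓ cT cD ψ' hψ'0 hPE heigT heigD
  obtain ⟨ψb, hψb⟩ := dsca_exists_char ι φ ψ aD cD haD hιD
  haveI : CharP κ ℓ := by
    haveI : CharP (ZMod ℓ) ℓ := ZMod.charP ℓ
    exact charP_of_injective_algebraMap (algebraMap (ZMod ℓ) κ).injective ℓ
  have hos : ∀ x : J, ℓ • x = 0 → ∃ E : IntermediateField ℚ Qb, FiniteDimensional ℚ E ∧
      ∀ σ : GQ, (∀ y ∈ E, σ y = y) → σ • x = x :=
    fun x hx => 𝒯.open_stab ℓ x hℓ.ne_zero hx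
  set ρM := dscaRhoM (J := J) ℓ κ with hρM
  haveI : Nontrivial (gasmSpan ρM x) := gasm_span_nontrivial ρM x hx0
  haveI : Module.Finite κ (gasmSpan ρM x) :=
    gasm_span_finite ρM x (dsca_orbit_finite ℓ κ hos x)
  have hlevel : GaloisFactorsThroughFiniteLevel (gasmSpanRep ρM x) := by
    obtain ⟨E, hE1, hE2⟩ := dsca_exists_level_set ℓ κ hos _ (dsca_orbit_finite ℓ κ hos x)
    exact ⟨E, hE1, fun σ hσ => gasmSpanRep_eq_one ρM x σ (fun g => hE2 σ hσ _ ⟨g, rfl⟩)⟩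
  -- arithmetic of the primes
  have hprime : ∀ p : ℕ, p.Prime → ¬ p ∣ M * ℓ → ¬ p ∣ M ∧ p ≠ ℓ := by
    intro p hp hpMℓ
    exact ⟨fun h => hpMℓ (h.mul_right ℓ), fun h => hpMℓ (h ▸ dvd_mul_left _ _)⟩
  have hunit : ∀ p : ℕ, p.Prime → ¬ p ∣ M → ∃ d : (ZMod M)ˣ, (d : ZMod M) = (p : ZMod M) := by
    intro p hp hpM
    exact ⟨ZMod.unitOfCoprime p ((Nat.Prime.coprime_iff_not_dvd hp).mpr hpM),
      ZMod.coe_unitOfCoprime p _⟩
  have htor : ∀ y : J, ℓ • y = 0 → ∃ n : ℕ, ℓ ^ n • y = 0 := fun y hy => ⟨1, by rw [pow_one]; exact hy⟩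
  -- unramified
  have hunr : ∀ p : ℕ, p.Prime → ¬ p ∣ M * ℓ → ∀ A : ValuationSubring Qb, A.LiesOverPrime p →
      ∀ σ ∈ A.inertiaSubgroupIn ℚ, gasmSpanRep ρM x σ = 1 := by
    intro p hp hpMℓ A hA σ hσ
    obtain ⟨hpM, hpℓ⟩ := hprime p hp hpMℓ
    obtain ⟨d, hd⟩ := hunit p hp hpM
    refine gasmSpanRep_eq_one ρM x σ (fun g => ?_)
    rw [hρM, dscaRhoM_eq_one ℓ κ σ
      (fun y hy => (𝒯.es ℓ hℓ p hp hpMℓ d hd A hA).1 σ hσ y (htor y hy)), Module.End.one_apply]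
  -- the scalars on the span
  have hspanT : ∀ p : ℕ, p.Prime → ¬ p ∣ M → p ≠ ℓ →
      ∀ w ∈ gasmSpan ρM x, dscaBC ℓ κ (𝒯.TJ p) w = cT p • w := fun p hp hpM hpℓ =>
    gasm_span_eigen ρM x _ (cT p)
      (fun g y => dscaBC_galois ℓ κ (𝒯.TJ p) (fun σ z => 𝒯.TJ_galois p σ z) g y)
      (hxT p hp hpM hpℓ)
  have hspanD : ∀ d : (ZMod M)ˣ, ∀ w ∈ gasmSpan ρM x, dscaBC ℓ κ (𝒯.DJ d) w = cD d • w :=
    fun d => gasm_span_eigen ρM x _ (cD d)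
      (fun g y => dscaBC_galois ℓ κ (𝒯.DJ d) (fun σ z => 𝒯.DJ_galois d σ z) g y) (hxD d)
  -- Eichler-Shimura on the span
  have hES : ∀ p : ℕ, p.Prime → ¬ p ∣ M * ℓ → ∀ d : (ZMod M)ˣ, (d : ZMod M) = (p : ZMod M) →
      ∀ A : ValuationSubring Qb, A.LiesOverPrime p → ∀ σ : GQ, A.IsFrobeniusAt σ p →
        (gasmSpanRep ρM x σ * gasmSpanRep ρM x σ - cT p • gasmSpanRep ρM x σ
          + ((p : κ) * cD (if 𝒯.tw then d⁻¹ else d)) • (1 : Module.End κ (gasmSpan ρM x))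
            : Module.End κ (gasmSpan ρM x)) = 0 := by
    intro p hp hpMℓ d hd A hA σ hσ
    obtain ⟨hpM, hpℓ⟩ := hprime p hp hpMℓ
    refine dsca_span_quadratic ρM x (dscaBC ℓ κ (𝒯.TJ p))
      (dscaBC ℓ κ (𝒯.DJ (if 𝒯.tw then d⁻¹ else d))) (cT p) (cD (if 𝒯.tw then d⁻¹ else d)) (p : κ)
      (hspanT p hp hpM hpℓ) (hspanD _) σ (fun y => ?_)
    exact dscaBC_quadratic ℓ κ (dscaSig σ) (𝒯.TJ p) (𝒯.DJ (if 𝒯.tw then d⁻¹ else d)) p
      (fun z hz => (𝒯.es ℓ hℓ p hp hpMℓ d hd A hA).2 σ hσ z (htor z hz)) y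
  -- values of the reduced nebentypus
  have hψbp : ∀ p : ℕ, ∀ d : (ZMod M)ˣ, (d : ZMod M) = (p : ZMod M) →
      ψb (p : ZMod M) = cD d := fun p d hd => by rw [← hd, hψb]
  have hcDinv : ∀ d : (ZMod M)ˣ, cD d⁻¹ = (cD d)⁻¹ := by
    intro d
    have h1 : cD d⁻¹ * cD d = 1 := by
      rw [← hψb, ← hψb, ← map_mul, ← Units.val_mul, inv_mul_cancel, Units.val_one, map_one]
    exact eq_inv_of_mul_eq_one_left h1
  have hcD0 : ∀ d : (ZMod M)ˣ, cD d ≠ 0 := by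
    intro d h
    have h1 : cD d⁻¹ * cD d = 1 := by
      rw [← hψb, ← hψb, ← map_mul, ← Units.val_mul, inv_mul_cancel, Units.val_one, map_one]
    rw [h, mul_zero] at h1
    exact zero_ne_one h1
  have hψ0 : ∀ d : (ZMod M)ˣ, ψ (d : ZMod M) ≠ 0 := fun d =>
    ((Units.isUnit d).map ψ).ne_zero
  rcases htw : 𝒯.tw with _ | _
  · -- the untwisted relation
    have hfrob : ∀ p : ℕ, p.Prime → ¬ p ∣ M * ℓ → ∀ A : ValuationSubring Qb,
        A.LiesOverPrime p → ∀ σ : GQ, A.IsFrobeniusAt σ p →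
          gasmSpanRep ρM x σ * gasmSpanRep ρM x σ - cT p • gasmSpanRep ρM x σ
            + ((p : κ) * ψb (p : ZMod M)) • (1 : Module.End κ (gasmSpan ρM x)) = 0 := by
      intro p hp hpMℓ A hA σ hσ
      obtain ⟨hpM, hpℓ⟩ := hprime p hp hpMℓ
      obtain ⟨d, hd⟩ := hunit p hp hpM
      have h1 := hES p hp hpMℓ d hd A hA σ hσ
      rw [htw] at h1
      rw [hψbp p d hd]
      simpa using h1
    obtain ⟨R, hR1, hR2⟩ := dscr_main ℓ M ψb (gasmSpanRep ρM x) hlevel cT hunr hfrob ι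
    refine ⟨R, hR2, fun p hp hpMℓ A hA σ hσ => ?_⟩
    obtain ⟨hpM, hpℓ⟩ := hprime p hp hpMℓ
    obtain ⟨d, hd⟩ := hunit p hp hpM
    refine ⟨aT p, (p : ℤbar) * aD d, ?_, ?_, ?_⟩
    · rw [haT p hp hpM, htw]
      simp
    · rw [← hd, ← haD d]
      push_cast
      rfl
    · have e1 : ι (cT p) = φ (aT p) := hιT p hp hpM
      have e2 : ι ((p : κ) * ψb (p : ZMod M)) = φ ((p : ℤbar) * aD d) := by
        rw [hψbp p d hd, map_mul ι, map_mul φ, map_natCast ι, map_natCast φ, hιD d]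
      rw [hR1 p hp hpMℓ A hA σ hσ, e1, e2]
  · -- the twisted relation
    have hfrob : ∀ p : ℕ, p.Prime → ¬ p ∣ M * ℓ → ∀ A : ValuationSubring Qb,
        A.LiesOverPrime p → ∀ σ : GQ, A.IsFrobeniusAt σ p →
          gasmSpanRep ρM x σ * gasmSpanRep ρM x σ
            - ((cT p * ψb (p : ZMod M)) * (ψb (p : ZMod M))⁻¹) • gasmSpanRep ρM x σ
            + ((p : κ) * (ψb (p : ZMod M))⁻¹) • (1 : Module.End κ (gasmSpan ρM x)) = 0 := by
      intro p hp hpMℓ A hA σ hσ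
      obtain ⟨hpM, hpℓ⟩ := hprime p hp hpMℓ
      obtain ⟨d, hd⟩ := hunit p hp hpM
      have h1 := hES p hp hpMℓ d hd A hA σ hσ
      rw [htw] at h1
      rw [hψbp p d hd, mul_assoc, mul_inv_cancel₀ (hcD0 d), mul_one, ← hcDinv d]
      simpa using h1
    obtain ⟨R, hR1, hR2⟩ := dscr_main_tw ℓ M ψb (gasmSpanRep ρM x) hlevel
      (fun p => cT p * ψb (p : ZMod M)) hunr hfrob ι
    refine ⟨R, hR2, fun p hp hpMℓ A hA σ hσ => ?_⟩
    obtain ⟨hpM, hpℓ⟩ := hprime p hp hpMℓ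
    obtain ⟨d, hd⟩ := hunit p hp hpM
    refine ⟨aT p * aD d, (p : ℤbar) * aD d, ?_, ?_, ?_⟩
    · have h2 : ((aT p * aD d : ℤbar) : ℂ) = ((aT p : ℤbar) : ℂ) * ((aD d : ℤbar) : ℂ) := rfl
      rw [h2, haT p hp hpM, htw, haD d, hd]
      have h3 : ψ (p : ZMod M) ≠ 0 := hd ▸ hψ0 d
      simp only [if_true]
      rw [mul_assoc, inv_mul_cancel₀ h3, mul_one]
    · rw [← hd, ← haD d]
      push_cast
      rfl
    · have e1 : ι (cT p * ψb (p : ZMod M)) = φ (aT p * aD d) := by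
        rw [map_mul ι, map_mul φ, hιT p hp hpM, hψbp p d hd, hιD d]
      have e2 : ι ((p : κ) * ψb (p : ZMod M)) = φ ((p : ℤbar) * aD d) := by
        rw [hψbp p d hd, map_mul ι, map_mul φ, map_natCast ι, map_natCast φ, hιD d]
      rw [hR1 p hp hpMℓ A hA σ hσ, e1, e2]

/-- **`DsBB1` from the contract** (the conclusion is the literal text of `DsBB1`,
`DS/CT/Main.lean`, with `7 ≤ M`): it suffices to provide, for every `M ≥ 7`, the data `DscTop M J Ab` and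
(PER1). -/
theorem dsca_BB1_of_top
    (h : ∀ (M : ℕ) [NeZero M], 7 ≤ M →
      ∃ (J : Type) (_ : AddCommGroup J) (_ : DistribMulAction GQ J) (Ab : Type)
        (_ : AddCommGroup Ab) (𝒯 : DscTop M J Ab), DscaPer 𝒯) :
    ∀ (M : ℕ) [NeZero M], 7 ≤ M →
      ∀ (g : CuspForm (Gamma1 M) 2) (ψ : DirichletCharacter ℂ M) (b : ℕ → ℂ),
      g ≠ 0 →
      (∀ γ : SL(2, ℤ), γ ∈ Gamma0 M →
        (g : ℍ → ℂ) ∣[(2 : ℤ)] γ = ψ ((γ 1 1 : ℤ) : ZMod M) • (g : ℍ → ℂ)) →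
      (∀ p : ℕ, p.Prime → ¬ p ∣ M → ∀ n : ℕ,
        qCoeff g (p * n) + (p : ℂ) * ψ (p : ZMod M) * (if p ∣ n then qCoeff g (n / p) else 0)
          = b p * qCoeff g n) →
      ∀ (ℓ : ℕ), ℓ.Prime → ∀ (k : Type) [Field k] [CharP k ℓ] (φ : ℤbar →+* k),
        ∃ ρ : ResidualGaloisRep k,
          (∀ p : ℕ, p.Prime → ¬ p ∣ M * ℓ → ρ.IsUnramifiedAt p) ∧
          ∀ p : ℕ, p.Prime → ¬ p ∣ M * ℓ →
            ∀ A : ValuationSubring (AlgebraicClosure ℚ), A.LiesOverPrime p →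
              ∀ σ : GQ, A.IsFrobeniusAt σ p →
                ∃ x y : ℤbar, (x : ℂ) = b p ∧ (y : ℂ) = (p : ℂ) * ψ (p : ZMod M) ∧
                  LinearMap.charpoly (ρ.ρ σ) = X ^ 2 - C (φ x) * X + C (φ y) := by
  intro M _ hM g ψ b hg hneb heig ℓ hℓ k _ _ φ
  obtain ⟨J, i1, i2, Ab, i3, 𝒯, hper⟩ := h M hM
  exact dsca_main 𝒯 hper g ψ b hg hneb heig ℓ hℓ k φ

end Main

end Fermat.Agent.DS
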