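import Mathlib
import Fermat.Agent.DS.C.Asm.Top
import Fermat.Agent.DS.C.Galois
import Fermat.Agent.DS.C.DiamondMul
import Fermat.Agent.DS.C.Per.Main

/-!
# DS, package (C), row C8 : the CONCRETE instance of the contract `DscTop`

`DscInputs M s` : what is still needed at level `M`, in the NATURAL form of the ports
(`s = true` is the sign predicted by the moduli computation, `s = false` the opposite one):

* `sep`      (C2)  `j` is a separating generator of the function field of `X₁(M)` over `ℚ̄`;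
* `dia`      (C1c, Br-7) the diamond automorphisms of the function field exist (then they are
                   multiplicative on `J₁(M)(ℚ̄)` by helper29's `DiamondMul.lean`);
* `theta`    (C6)  the multiplier map intertwines `dscTAtw M p` with `dscHeckeBar M p` and
                   `dscDia M d` with `dscDiamondBar M d⁻¹`;
* `es`       (C5)  `⟨p⟩ σ² - T_p σ + p = 0` on the `ℓ`-power torsion, for `T_p = dscHeckeBar M p`.

`dscTopInst` : the value of `DscTop M (DscJ M) (dscAb M)`; `dscInst_per` : (PER1) for it (from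
helper4's `dscper_main'`); `ds_BB1_of_inputs` : the literal text of `DsBB1`.
-/

set_option autoImplicit false
set_option linter.unusedSectionVars false
set_option linter.unusedVariables false
set_option linter.style.haveILetI false

noncomputable section

namespace Fermat.Agent.DS

open CongruenceSubgroup UpperHalfPlane ModularFormClass Polynomial AlgebraicCurve ModularCurve
  Fermat.Agent.S24
open scoped MatrixGroups ModularForm

local notation "Qb" => AlgebraicClosure ℚ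
local notation "GQ" => (AlgebraicClosure ℚ ≃ₐ[ℚ] AlgebraicClosure ℚ)
local notation "ℤbar" => integralClosure ℤ ℂ

/-- `d` or `d⁻¹`. -/
def dsciSg {M : ℕ} (s : Bool) (d : (ZMod M)ˣ) : (ZMod M)ˣ := if s then d else d⁻¹

/-- what the rows C0/C1c, C2, C5, C6 still have to provide at level `M`, in the natural form of
the ports. -/
structure DscInputs (M : ℕ) [NeZero M] (s : Bool) : Prop where
  /-- (C2) -/
  sep : IsSepGen Qb (dscJBar Qb M 1)
  /-- (C1c, Br-7) the diamond automorphisms exist -/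
  dia : ∀ d : (ZMod M)ˣ, ∃ Θ, DscIsDiamond Qb M 1 d Θ
  /-- (C6) -/
  theta : ∀ ℓ : ℕ, ℓ.Prime → ∃ Θ : dscaKill (dscPE M) (ZMod ℓ) →+ DscJ M, Function.Injective Θ ∧
    (∀ (p : ℕ) (hp : p.Prime), ¬ p ∣ M → p ≠ ℓ → ∀ χ χ' : dscaKill (dscPE M) (ZMod ℓ),
      (χ' : dscAb M →+ ZMod ℓ) = (χ : dscAb M →+ ZMod ℓ).comp (dscTAtw M p) →
        Θ χ' = dscHeckeBar M ⟨p, hp⟩ (Θ χ)) ∧
    (∀ (d : (ZMod M)ˣ) (χ χ' : dscaKill (dscPE M) (ZMod ℓ)),
      (χ' : dscAb M →+ ZMod ℓ) = (χ : dscAb M →+ ZMod ℓ).comp (dscDia M d) →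
        Θ χ' = dscDiamondBar M (dsciSg s d)⁻¹ (Θ χ))
  /-- (C5) -/
  es : ∀ ℓ : ℕ, ℓ.Prime → ∀ (p : ℕ) (hp : p.Prime), ¬ p ∣ M * ℓ →
    ∀ d : (ZMod M)ˣ, (d : ZMod M) = (p : ZMod M) →
    ∀ A : ValuationSubring Qb, A.LiesOverPrime p →
      (∀ σ ∈ A.inertiaSubgroupIn ℚ, ∀ x : DscJ M, (∃ n : ℕ, ℓ ^ n • x = 0) → σ • x = x) ∧
      (∀ σ : GQ, A.IsFrobeniusAt σ p → ∀ x : DscJ M, (∃ n : ℕ, ℓ ^ n • x = 0) →
        dscDiamondBar M (dsciSg s d) (σ • σ • x) - dscHeckeBar M ⟨p, hp⟩ (σ • x) + p • x = 0)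

/-! ### the diamond operators of `Γ₁(M)^ab` preserve the parabolic and elliptic classes -/

theorem dsci_dia_mem_PE (M : ℕ) [NeZero M] (d : (ZMod M)ˣ) {t : dscAb M} (ht : t ∈ dscPE M) :
    dscDia M d t ∈ dscPE M := by
  obtain ⟨γ, hγ, rfl⟩ := ht
  refine ⟨dscConj M (dscSigma M d) (dscSigma_mem M d) γ, ?_, (dscDia_cls' M d γ).symm⟩
  have h1 : (((dscConj M (dscSigma M d) (dscSigma_mem M d) γ : Gamma1 M) : SL(2, ℤ)) :
      Matrix (Fin 2) (Fin 2) ℤ).trace = (((γ : SL(2, ℤ)) : Matrix (Fin 2) (Fin 2) ℤ).trace) := by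
    rw [dscConj_coe, Matrix.SpecialLinearGroup.coe_mul, Matrix.SpecialLinearGroup.coe_mul,
      Matrix.trace_mul_cycle, ← Matrix.SpecialLinearGroup.coe_mul, inv_mul_cancel,
      Matrix.SpecialLinearGroup.coe_one, one_mul]
  rw [h1]
  exact hγ

theorem dsci_comp_dia_mem {M : ℕ} [NeZero M] {A : Type*} [AddCommGroup A] (d : (ZMod M)ˣ)
    {χ : dscAb M →+ A} (hχ : χ ∈ dscaKill (dscPE M) A) :
    χ.comp (dscDia M d) ∈ dscaKill (dscPE M) A := by
  intro t ht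
  rw [AddMonoidHom.comp_apply]
  exact hχ _ (dsci_dia_mem_PE M d ht)

/-! ### the instance -/

section Inst

variable (M : ℕ) [NeZero M] (s : Bool)

/-- `⟨d⟩_* = dscDiamondBar M (d^{±1})⁻¹` as an additive endomorphism of `J₁(M)(ℚ̄)`. -/
def dsciDJ (d : (ZMod M)ˣ) : DscJ M →+ DscJ M :=
  (dscDiamondBar M (dsciSg s d)⁻¹).toAddMonoidHom

theorem dsciDJ_apply (d : (ZMod M)ˣ) (x : DscJ M) :
    dsciDJ M s d x = dscDiamondBar M (dsciSg s d)⁻¹ x := rfl

open Classical in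
/-- `T_{p*} = dscHeckeBar M p ∘ ⟨p⟩_*` (total in `p`). -/
def dsciTJ (p : ℕ) : DscJ M →+ DscJ M :=
  if hp : p.Prime ∧ ¬ p ∣ M then
    ((dscHeckeBar M ⟨p, hp.1⟩).toAddMonoidHom).comp (dsciDJ M s (@dscUnit M p ⟨hp.1⟩ hp.2))
  else 0

theorem dsciTJ_apply (p : ℕ) (hp : p.Prime) (hpM : ¬ p ∣ M) (x : DscJ M) :
    dsciTJ M s p x =
      dscHeckeBar M ⟨p, hp⟩ (dsciDJ M s (@dscUnit M p ⟨hp⟩ hpM) x) := by
  have h : p.Prime ∧ ¬ p ∣ M := ⟨hp, hpM⟩
  rw [dsciTJ, dif_pos h]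
  rfl

open Classical in
/-- the matching operator on `Γ₁(M)^ab` (total in `p`). -/
def dsciTA (p : ℕ) : dscAb M →+ dscAb M :=
  if hp : p.Prime ∧ ¬ p ∣ M then
    (dscDia M (@dscUnit M p ⟨hp.1⟩ hp.2)).comp (dscTAtw M p)
  else 0

theorem dsciTA_eq (p : ℕ) (hp : p.Prime) (hpM : ¬ p ∣ M) :
    dsciTA M p = (dscDia M (@dscUnit M p ⟨hp⟩ hpM)).comp (dscTAtw M p) := by
  have h : p.Prime ∧ ¬ p ∣ M := ⟨hp, hpM⟩
  rw [dsciTA, dif_pos h]

variable {M s}

theorem dsci_dia_cancel (h : DscInputs M s) (e : (ZMod M)ˣ) (x : DscJ M) :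
    dscDiamondBar M e (dscDiamondBar M e⁻¹ x) = x :=
  dscDiamondBar_apply_inv (h.dia e) x

variable (M s)

/-- **the concrete value of the contract.** -/
def dscTopInst (h : DscInputs M s) : DscTop M (DscJ M) (dscAb M) where
  TJ := dsciTJ M s
  DJ := dsciDJ M s
  TA := dsciTA M
  DA := dscDia M
  PE := dscPE M
  tw := false
  ab_fg := dscper_fg M
  TJ_galois := by
    intro p σ x
    by_cases hp : p.Prime ∧ ¬ p ∣ M
    · rw [dsciTJ_apply M s p hp.1 hp.2, dsciTJ_apply M s p hp.1 hp.2, dsciDJ_apply, dsciDJ_apply,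
        ← dsc_diamond_galois, ← dsc_hecke_galois]
    · rw [dsciTJ, dif_neg hp, AddMonoidHom.zero_apply, AddMonoidHom.zero_apply, smul_zero]
  DJ_galois := by
    intro d σ x
    rw [dsciDJ_apply, dsciDJ_apply, ← dsc_diamond_galois]
  open_stab := by
    intro n x _ _
    obtain ⟨E, hE, hfix⟩ := dsc_exists_fixing M 1 h.sep x
    exact ⟨E, hE, fun σ hσ => hfix σ ((IntermediateField.mem_fixingSubgroup_iff E σ).mpr hσ)⟩
  theta := by
    intro ℓ hℓ
    obtain ⟨Θ, hinj, hT, hD⟩ := h.theta ℓ hℓ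
    refine ⟨Θ, hinj, ?_, ?_⟩
    · intro p hp hpM hpℓ χ χ' hχ
      rw [dsciTA_eq M p hp hpM, ← AddMonoidHom.comp_assoc] at hχ
      let χ₁ : dscaKill (dscPE M) (ZMod ℓ) :=
        ⟨(χ : dscAb M →+ ZMod ℓ).comp (dscDia M (@dscUnit M p ⟨hp⟩ hpM)),
          dsci_comp_dia_mem _ χ.2⟩
      rw [hT p hp hpM hpℓ χ₁ χ' hχ, hD (@dscUnit M p ⟨hp⟩ hpM) χ χ₁ rfl,
        dsciTJ_apply M s p hp hpM, dsciDJ_apply]
    · intro d χ χ' hχ
      rw [hD d χ χ' hχ, dsciDJ_apply]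
  es := by
    intro ℓ hℓ p hp hpMℓ d hd A hA
    have hpM : ¬ p ∣ M := fun h' => hpMℓ (h'.mul_right ℓ)
    obtain ⟨h1, h2⟩ := h.es ℓ hℓ p hp hpMℓ d hd A hA
    refine ⟨h1, fun σ hσ x hx => ?_⟩
    have hdu : d = @dscUnit M p ⟨hp⟩ hpM := Units.ext (by rw [hd]; rfl)
    have hy : ∃ n : ℕ, ℓ ^ n • dsciDJ M s d x = 0 := by
      obtain ⟨n, hn⟩ := hx
      exact ⟨n, by rw [← map_nsmul, hn, map_zero]⟩
    have h3 := h2 σ hσ (dsciDJ M s d x) hy
    have h4 : dscDiamondBar M (dsciSg s d) (σ • σ • dsciDJ M s d x) = σ • σ • x := by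
      rw [dsciDJ_apply, ← dsc_diamond_galois, ← dsc_diamond_galois, dsci_dia_cancel h]
    have h5 : σ • dsciDJ M s d x = dsciDJ M s d (σ • x) := by
      rw [dsciDJ_apply, dsciDJ_apply, dsc_diamond_galois]
    rw [h4, h5] at h3
    simp only [Bool.false_eq_true, if_false]
    rw [dsciTJ_apply M s p hp hpM, ← hdu]
    exact h3

/-- **(PER1)** for the concrete instance, from helper4's `dscper_main'`. -/
theorem dscInst_per (hM : 5 ≤ M) (h : DscInputs M s) : DscaPer (dscTopInst M s h) := by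
  intro g ψ b hg hneb hT
  obtain ⟨Ψ, h1, h2, -, h4, h5⟩ := dscper_main' M hM g ψ b hg hneb hT
  refine ⟨Ψ, h1, h2, ?_, h5⟩
  intro p hp hpM
  show Ψ.comp (dsciTA M p) = (if false = true then b p * (ψ (p : ZMod M))⁻¹ else b p) • Ψ
  simp only [Bool.false_eq_true, if_false]
  rw [dsciTA_eq M p hp hpM, ← AddMonoidHom.comp_assoc, h5, ]
  refine AddMonoidHom.ext fun t => ?_
  have h6 := DFunLike.congr_fun (h4 p hp hpM) t
  rw [AddMonoidHom.comp_apply, AddMonoidHom.smul_apply] at h6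
  rw [AddMonoidHom.comp_apply, AddMonoidHom.smul_apply, AddMonoidHom.smul_apply, h6, smul_smul]
  congr 1
  have h7 : ψ (((@dscUnit M p ⟨hp⟩ hpM : (ZMod M)ˣ)) : ZMod M) ≠ 0 :=
    ((Units.isUnit _).map ψ).ne_zero
  have h8 : ((@dscUnit M p ⟨hp⟩ hpM : (ZMod M)ˣ) : ZMod M) = (p : ZMod M) := rfl
  rw [h8] at h7 ⊢
  field_simp

end Inst

/-- **`DsBB1` from the natural inputs** (literal text of `DsBB1`, `DS/CT/Main.lean`, with `7 ≤ M`:
row C1c/C3 need admissible triples, `DsBB1` is only ever applied with `M = N ℓ`, `ℓ > 5`). -/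
theorem ds_BB1_of_inputs
    (h : ∀ (M : ℕ) [NeZero M], 7 ≤ M → ∃ s : Bool, DscInputs M s) :
    ∀ (M : ℕ) [NeZero M], 7 ≤ M →
      ∀ (g : CuspForm (Gamma1 M) 2) (ψ : DirichletCharacter ℂ M) (b : ℕ → ℂ),
      g ≠ 0 →
      (∀ γ : SL(2, ℤ), γ ∈ Gamma0 M →
        (g : ℍ → ℂ) ∣[(2 : ℤ)] γ = ψ ((γ 1 1 : ℤ) : ZMod M) • (g : ℍ → ℂ)) →
      (∀ p : ℕ, p.Prime → ¬ p ∣ M → ∀ n : ℕ,
        qCoeff g (p * n) + (p : ℂ) * ψ (p : ZMod M) * (if p ∣ n then qCoeff g (n / p) else 0)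
          = b p * qCoeff g n) →
      ∀ (ℓ : ℕ), ℓ.Prime → ∀ (k : Type) [Field k] [CharP k ℓ] (φ : ℤbar →+* k),
        ∃ ρ : ResidualGaloisRep k,
          (∀ p : ℕ, p.Prime → ¬ p ∣ M * ℓ → ρ.IsUnramifiedAt p) ∧
          ∀ p : ℕ, p.Prime → ¬ p ∣ M * ℓ →
            ∀ A : ValuationSubring (AlgebraicClosure ℚ), A.LiesOverPrime p →
              ∀ σ : GQ, A.IsFrobeniusAt σ p →
                ∃ x y : ℤbar, (x : ℂ) = b p ∧ (y : ℂ) = (p : ℂ) * ψ (p : ZMod M) ∧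
                  LinearMap.charpoly (ρ.ρ σ) = X ^ 2 - C (φ x) * X + C (φ y) :=
  dsca_BB1_of_top (fun M _ hM => by
    obtain ⟨s, hs⟩ := h M hM
    exact ⟨DscJ M, inferInstance, inferInstance, dscAb M, inferInstance, dscTopInst M s hs,
      dscInst_per M s (le_trans (by norm_num) hM) hs⟩)

end Fermat.Agent.DS
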