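import Mathlib
import Fermat.Agent.DS.C.Asm.Inst
import Fermat.Agent.DS.C.Br.Level
import Fermat.Agent.DS.C.Br.DiamondBar

/-!
# DS, package (C), row C8 : `DsBB1` from the TWO remaining black boxes

With the bridge (row C1c, closed): `sep := dscbr_isSepGen_bar M`, `dia := dscbr_exists_isDiamond_bar M`,
the inputs `DscInputs M true` are reduced to

* `DscThetaBox M` (row C6) : the multiplier map intertwines `dscTAtw M p` with `dscHeckeBar M p`
  and `dscDia M d` with `dscDiamondBar M d⁻¹`;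
* `DscEsBox M` (row C5) : `⟨p⟩ σ² - T_p σ + p = 0` on the `ℓ`-power torsion.

`ds_BB1_of_boxes` : the literal text of `DsBB1` (`7 ≤ M`).
-/

set_option autoImplicit false
set_option linter.unusedSectionVars false
set_option linter.unusedVariables false

noncomputable section

namespace Fermat.Agent.DS

open CongruenceSubgroup UpperHalfPlane ModularFormClass Polynomial AlgebraicCurve ModularCurve
  Fermat.Agent.S24
open scoped MatrixGroups ModularForm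

local notation "Qb" => AlgebraicClosure ℚ
local notation "GQ" => (AlgebraicClosure ℚ ≃ₐ[ℚ] AlgebraicClosure ℚ)
local notation "ℤbar" => integralClosure ℤ ℂ

/-- **(THETA)**, the black box of row C6, at level `M`. -/
def DscThetaBox (M : ℕ) [NeZero M] : Prop :=
  ∀ ℓ : ℕ, ℓ.Prime → ∃ Θ : dscaKill (dscPE M) (ZMod ℓ) →+ DscJ M, Function.Injective Θ ∧
    (∀ (p : ℕ) (hp : p.Prime), ¬ p ∣ M → p ≠ ℓ → ∀ χ χ' : dscaKill (dscPE M) (ZMod ℓ),
      (χ' : dscAb M →+ ZMod ℓ) = (χ : dscAb M →+ ZMod ℓ).comp (dscTAtw M p) →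
        Θ χ' = dscHeckeBar M ⟨p, hp⟩ (Θ χ)) ∧
    (∀ (d : (ZMod M)ˣ) (χ χ' : dscaKill (dscPE M) (ZMod ℓ)),
      (χ' : dscAb M →+ ZMod ℓ) = (χ : dscAb M →+ ZMod ℓ).comp (dscDia M d) →
        Θ χ' = dscDiamondBar M d⁻¹ (Θ χ))

/-- **(ES)**, the black box of row C5, at level `M`. -/
def DscEsBox (M : ℕ) [NeZero M] : Prop :=
  ∀ ℓ : ℕ, ℓ.Prime → ∀ (p : ℕ) (hp : p.Prime), ¬ p ∣ M * ℓ →
    ∀ d : (ZMod M)ˣ, (d : ZMod M) = (p : ZMod M) →
    ∀ A : ValuationSubring Qb, A.LiesOverPrime p →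
      (∀ σ ∈ A.inertiaSubgroupIn ℚ, ∀ x : DscJ M, (∃ n : ℕ, ℓ ^ n • x = 0) → σ • x = x) ∧
      (∀ σ : GQ, A.IsFrobeniusAt σ p → ∀ x : DscJ M, (∃ n : ℕ, ℓ ^ n • x = 0) →
        dscDiamondBar M d (σ • σ • x) - dscHeckeBar M ⟨p, hp⟩ (σ • x) + p • x = 0)

/-- the inputs of the concrete assembly, from the bridge and the two black boxes. -/
theorem dsc_inputs (M : ℕ) [NeZero M] (hth : DscThetaBox M) (hes : DscEsBox M) :
    DscInputs M true where
  sep := dscbr_isSepGen_bar M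
  dia := dscbr_exists_isDiamond_bar M
  theta := hth
  es := hes

/-- **`DsBB1` from (THETA) and (ES)** (literal text of `DsBB1` with `7 ≤ M`). -/
theorem ds_BB1_of_boxes
    (h : ∀ (M : ℕ) [NeZero M], 7 ≤ M → DscThetaBox M ∧ DscEsBox M) :
    ∀ (M : ℕ) [NeZero M], 7 ≤ M →
      ∀ (g : CuspForm (Gamma1 M) 2) (ψ : DirichletCharacter ℂ M) (b : ℕ → ℂ),
      g ≠ 0 →
      (∀ γ : SL(2, ℤ), γ ∈ Gamma0 M →
        (g : ℍ → ℂ) ∣[(2 : ℤ)] γ = ψ ((γ 1 1 : ℤ) : ZMod M) • (g : ℍ → ℂ)) →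
      (∀ p : ℕ, p.Prime → ¬ p ∣ M → ∀ n : ℕ,
        qCoeff g (p * n) + (p : ℂ) * ψ (p : ZMod M) * (if p ∣ n then qCoeff g (n / p) else 0)
          = b p * qCoeff g n) →
      ∀ (ℓ : ℕ), ℓ.Prime → ∀ (k : Type) [Field k] [CharP k ℓ] (φ : ℤbar →+* k),
        ∃ ρ : ResidualGaloisRep k,
          (∀ p : ℕ, p.Prime → ¬ p ∣ M * ℓ → ρ.IsUnramifiedAt p) ∧
          ∀ p : ℕ, p.Prime → ¬ p ∣ M * ℓ →
            ∀ A : ValuationSubring (AlgebraicClosure ℚ), A.LiesOverPrime p →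
              ∀ σ : GQ, A.IsFrobeniusAt σ p →
                ∃ x y : ℤbar, (x : ℂ) = b p ∧ (y : ℂ) = (p : ℂ) * ψ (p : ZMod M) ∧
                  LinearMap.charpoly (ρ.ρ σ) = X ^ 2 - C (φ x) * X + C (φ y) :=
  ds_BB1_of_inputs (fun M _ hM => ⟨true, dsc_inputs M (h M hM).1 (h M hM).2⟩)

end Fermat.Agent.DS
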